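import Mathlib.Analysis.SpecialFunctions.Pow.Real
import Mathlib.Data.Finset.Sort
import Mathlib.Tactic

/-!
# Lattice points on convex chains

A convex chain of lattice points has distinct edge vectors, so few of them are short (Jarník).
-/

set_option autoImplicit false

noncomputable section

open Finset

namespace FA.JarnikLattice

/-- The number of edges, from their total length. -/
theorem card_edges_le {ι : Type*} (E : Finset ι) (v : ι → ℤ × ℤ)
    (hinj : Set.InjOn v (E : Set ι)) (hpos : ∀ i ∈ E, 0 < (v i).1) {L : ℝ}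
    (hL : ((∑ i ∈ E, ((v i).1 + |(v i).2|) : ℤ) : ℝ) ≤ L) :
    (#E : ℝ) ≤ 3 * (L ^ (1 / 3 : ℝ) + 1) ^ 2 + (L ^ (1 / 3 : ℝ)) ^ 2 := by
  classical
  have hsum0 : (0 : ℤ) ≤ ∑ i ∈ E, ((v i).1 + |(v i).2|) :=
    sum_nonneg fun i hi => add_nonneg (hpos i hi).le (abs_nonneg _)
  have hL0 : 0 ≤ L := le_trans (by exact_mod_cast hsum0) hL
  set r := L ^ (1 / 3 : ℝ) with hr
  have hr0 : 0 ≤ r := Real.rpow_nonneg hL0 _
  have hr3 : r ^ 3 = L := by
    rw [hr, ← Real.rpow_natCast _ 3, ← Real.rpow_mul hL0]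
    norm_num
  set k := ⌈r⌉₊
  have hk : (k : ℝ) < r + 1 := Nat.ceil_lt_add_one hr0
  have hk' : r ≤ (k : ℝ) + 1 := (Nat.le_ceil r).trans (by linarith)
  set small := E.filter fun i => (v i).1 + |(v i).2| ≤ (k : ℤ)
  set big := E.filter fun i => ¬(v i).1 + |(v i).2| ≤ (k : ℤ)
  have hsmall : #small ≤ k * (2 * k + 1) := by
    refine (card_le_card_of_injOn v (t := Icc (1 : ℤ) k ×ˢ Icc (-(k : ℤ)) k) (fun i hi => ?_)
      (hinj.mono (filter_subset _ _))).trans (le_of_eq ?_)
    · obtain ⟨hiE, hik⟩ := mem_filter.1 hi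
      have := hpos i hiE
      have := abs_nonneg (v i).2
      rcases abs_le.1 (show |(v i).2| ≤ (k : ℤ) by omega) with ⟨h1, h2⟩
      simp only [coe_product, Set.mem_prod, coe_Icc, Set.mem_Icc]
      omega
    · rw [card_product, Int.card_Icc, Int.card_Icc]
      congr 1 <;> omega
  have hbig : (#big : ℝ) * (k + 1) ≤ L := by
    refine le_trans ?_ hL
    have : (#big : ℤ) * (k + 1) ≤ ∑ i ∈ E, ((v i).1 + |(v i).2|) := by
      refine le_trans ?_ (sum_le_sum_of_subset_of_nonneg (show big ⊆ E from filter_subset _ _)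
        fun i hi _ => add_nonneg (hpos i hi).le (abs_nonneg _))
      rw [← nsmul_eq_mul]
      exact card_nsmul_le_sum _ _ _ fun i hi => by
        have := (mem_filter.1 hi).2
        omega
    exact_mod_cast this
  have h1 : (#small : ℝ) ≤ 3 * (r + 1) ^ 2 := by
    have hs : (#small : ℝ) ≤ ((k * (2 * k + 1) : ℕ) : ℝ) := Nat.cast_le.2 hsmall
    push_cast at hs
    nlinarith [(Nat.cast_nonneg k : (0 : ℝ) ≤ k)]
  have h2 : (#big : ℝ) ≤ r ^ 2 := by
    rcases hr0.eq_or_lt with h | h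
    · nlinarith [hr3, h, (Nat.cast_nonneg k : (0 : ℝ) ≤ k)]
    · have : (#big : ℝ) * r ≤ r ^ 2 * r := by
        nlinarith [(Nat.cast_nonneg #big : (0 : ℝ) ≤ #big), hr3]
      exact le_of_mul_le_mul_right this h
  rw [show #E = #small + #big from (card_filter_add_card_filter_not _).symm, Nat.cast_add]
  linarith

theorem cross_trans {A B C a b c : ℤ} (hb : 0 < b) (ha : 0 < a) (hc : 0 < c)
    (h1 : A * b < B * a) (h2 : B * c < C * b) : A * c < C * a := by
  nlinarith [mul_lt_mul_of_pos_right h1 hc, mul_lt_mul_of_pos_right h2 ha]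

/-- **Jarník's bound** for the abscissae of a strictly convex chain. -/
theorem chain_card_le (X : Finset ℤ) (y : ℤ → ℤ) {N : ℝ} (hN : 0 ≤ N)
    (hconv : ∀ a ∈ X, ∀ b ∈ X, ∀ c ∈ X, a < b → b < c →
      (y b - y a) * (c - b) < (y c - y b) * (b - a))
    (hx : ∀ a ∈ X, ∀ b ∈ X, ((b - a : ℤ) : ℝ) ≤ N)
    (hy : ∀ a ∈ X, ∀ b ∈ X, ((y b - y a : ℤ) : ℝ) ≤ N) :
    (#X : ℝ) ≤ 24 * N ^ (2 / 3 : ℝ) + 24 := by
  classical
  rcases X.eq_empty_or_nonempty with rfl | hne
  · simpa using add_nonneg (mul_nonneg (by norm_num) (Real.rpow_nonneg hN (2 / 3))) (by norm_num :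
      (0 : ℝ) ≤ 24)
  obtain ⟨m, hm⟩ : ∃ m, #X = m + 1 := ⟨#X - 1, by have := hne.card_pos; omega⟩
  let x : ℕ → ℤ := fun i => if h : i < m + 1 then X.orderEmbOfFin hm ⟨i, h⟩ else 0
  have hmem : ∀ i ≤ m, x i ∈ X := fun i hi => by
    simp only [x, dif_pos (Nat.lt_succ_of_le hi)]
    exact X.orderEmbOfFin_mem hm _
  have hmono : ∀ i j, i < j → j ≤ m → x i < x j := fun i j hij hj => by
    simp only [x, dif_pos (show i < m + 1 by omega), dif_pos (show j < m + 1 by omega)]
    exact (X.orderEmbOfFin hm).strictMono (Fin.mk_lt_mk.2 hij)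
  let dx : ℕ → ℤ := fun i => x (i + 1) - x i
  let dy : ℕ → ℤ := fun i => y (x (i + 1)) - y (x i)
  have hdx : ∀ i < m, 0 < dx i := fun i hi => sub_pos.2 (hmono i (i + 1) (by omega) (by omega))
  have hslope : ∀ i j, i < j → j < m → dy i * dx j < dy j * dx i := by
    intro i j hij hj
    rcases (show i + 1 ≤ j from hij).eq_or_lt with rfl | hlt
    · exact hconv _ (hmem i (by omega)) _ (hmem (i + 1) (by omega)) _ (hmem (i + 2) (by omega))
        (hmono _ _ (by omega) (by omega)) (hmono _ _ (by omega) (by omega))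
    · refine cross_trans (B := y (x j) - y (x (i + 1))) (b := x j - x (i + 1))
        (sub_pos.2 (hmono _ _ hlt (by omega))) (hdx i (by omega)) (hdx j hj) ?_ ?_
      · exact hconv _ (hmem i (by omega)) _ (hmem (i + 1) (by omega)) _ (hmem j (by omega))
          (hmono _ _ (by omega) (by omega)) (hmono _ _ hlt (by omega))
      · exact hconv _ (hmem (i + 1) (by omega)) _ (hmem j (by omega)) _ (hmem (j + 1) (by omega))
          (hmono _ _ hlt (by omega)) (hmono _ _ (by omega) (by omega))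
  have hne' : ∀ i j, i < j → j < m → (dx i, dy i) ≠ (dx j, dy j) := fun i j hij hj e => by
    have h := hslope i j hij hj
    obtain ⟨e1, e2⟩ := Prod.ext_iff.1 e
    simp only at e1 e2
    rw [e1, e2] at h
    exact lt_irrefl _ h
  -- the turning point
  obtain ⟨j₀, hj₀, hlow, hhigh⟩ : ∃ j₀ ≤ m,
      (∀ i < j₀, dy i < 0) ∧ ∀ i, j₀ ≤ i → i < m → 0 ≤ dy i := by
    by_cases h : ∃ j, j < m ∧ 0 ≤ dy j
    · obtain ⟨hj, hdy⟩ := Nat.find_spec h
      refine ⟨Nat.find h, hj.le, fun i hi => ?_, fun i hi him => ?_⟩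
      · have := Nat.find_min h hi
        push Not at this
        exact this (hi.trans hj)
      · rcases hi.eq_or_lt with rfl | hlt
        · exact hdy
        · have h1 := hslope _ i hlt him
          have h2 := mul_nonneg hdy (hdx i him).le
          exact (pos_of_mul_pos_left (h2.trans_lt h1) (hdx _ hj).le).le
    · push Not at h
      exact ⟨m, le_rfl, h, fun i hi him => absurd him (not_lt.2 hi)⟩
  have htotal : ((∑ i ∈ range m, (dx i + |dy i|) : ℤ) : ℝ) ≤ 3 * N := by
    have e1 : ∑ i ∈ range m, dx i = x m - x 0 := sum_range_sub x m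
    have e2 : ∑ i ∈ range m, |dy i| = (y (x 0) - y (x j₀)) + (y (x m) - y (x j₀)) := by
      rw [← sum_range_add_sum_Ico _ hj₀]
      congr 1
      · rw [sum_congr rfl fun i hi => abs_of_neg (hlow i (mem_range.1 hi)), sum_neg_distrib,
          sum_range_sub (fun i => y (x i)) j₀, neg_sub]
      · rw [sum_congr rfl fun i hi => abs_of_nonneg (hhigh i (mem_Ico.1 hi).1 (mem_Ico.1 hi).2)]
        exact sum_Ico_sub (fun i => y (x i)) hj₀
    rw [sum_add_distrib, e1, e2]
    have h1 := hx _ (hmem 0 m.zero_le) _ (hmem m le_rfl)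
    have h2 := hy _ (hmem j₀ hj₀) _ (hmem 0 m.zero_le)
    have h3 := hy _ (hmem j₀ hj₀) _ (hmem m le_rfl)
    push_cast at h1 h2 h3 ⊢
    linarith
  have h := card_edges_le (range m) (fun i => (dx i, dy i)) (fun i hi j hj e => by
      simp only [coe_range, Set.mem_Iio] at hi hj
      rcases lt_trichotomy i j with h | h | h
      exacts [absurd e (hne' i j h hj), h, absurd e.symm (hne' j i h hi)])
    (fun i hi => hdx i (mem_range.1 hi)) htotal
  rw [card_range] at h
  set r := (3 * N) ^ (1 / 3 : ℝ) with hr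
  have hr2 : r ^ 2 ≤ 3 * N ^ (2 / 3 : ℝ) := by
    rw [hr, ← Real.rpow_natCast _ 2, ← Real.rpow_mul (by positivity), Nat.cast_ofNat,
      show (1 / 3 : ℝ) * 2 = 2 / 3 by norm_num, Real.mul_rpow (by norm_num) hN]
    refine mul_le_mul_of_nonneg_right ?_ (Real.rpow_nonneg hN _)
    calc (3 : ℝ) ^ (2 / 3 : ℝ) ≤ (3 : ℝ) ^ (1 : ℝ) :=
          Real.rpow_le_rpow_of_exponent_le (by norm_num) (by norm_num)
      _ = 3 := Real.rpow_one 3
  rw [hm, Nat.cast_add, Nat.cast_one]
  nlinarith [sq_nonneg (r - 1)]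

end FA.JarnikLattice

end
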