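import Fermat.Agent.JarnikLattice.Chain
import Fermat.Agent.HappyEnding.Basic
import Mathlib.Analysis.Convex.Slope
import Mathlib.Analysis.LocallyConvex.Separation
import Mathlib.Analysis.Normed.Module.Convex

/-!
# Jarník's theorem

Few lattice points of a square are in convex position; so strictly convex graphs and circles hold
few lattice points.
-/

set_option autoImplicit false

noncomputable section

open Finset

namespace FA.JarnikLattice

/-- A lattice point in the plane. -/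
def toPlane (p : ℤ × ℤ) : ℝ × ℝ := ((p.1 : ℝ), (p.2 : ℝ))

theorem toPlane_injective : Function.Injective toPlane := fun p q h => by
  simpa [toPlane, Prod.ext_iff] using h

theorem lower_card_le (S : Finset (ℤ × ℤ)) {N : ℝ} (hN : 0 ≤ N)
    (hsep : ∀ p ∈ S, ∃ α β : ℝ, 0 < β ∧
      ∀ q ∈ S, q ≠ p → α * p.1 + β * p.2 < α * q.1 + β * q.2)
    (hx : ∀ p ∈ S, ∀ q ∈ S, ((q.1 - p.1 : ℤ) : ℝ) ≤ N)
    (hy : ∀ p ∈ S, ∀ q ∈ S, ((q.2 - p.2 : ℤ) : ℝ) ≤ N) :
    (#S : ℝ) ≤ 24 * N ^ (2 / 3 : ℝ) + 24 := by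
  classical
  have hinj : Set.InjOn Prod.fst (S : Set (ℤ × ℤ)) := fun p hp q hq e => by
    by_contra hne
    obtain ⟨α, β, hβ, h⟩ := hsep p hp
    obtain ⟨α', β', hβ', h'⟩ := hsep q hq
    have h1 := h q hq (Ne.symm hne)
    have h2 := h' p hp hne
    rw [e] at h1 h2
    have h3 : (p.2 : ℝ) < q.2 := lt_of_mul_lt_mul_left (by linarith : β * p.2 < β * q.2) hβ.le
    exact absurd (lt_of_mul_lt_mul_left (by linarith : β' * q.2 < β' * p.2) hβ'.le) h3.asymm
  let y : ℤ → ℤ := fun a =>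
    if h : ∃ p ∈ S, p.1 = a then (Classical.choose h).2 else 0
  have hy' : ∀ p ∈ S, y p.1 = p.2 := fun p hp => by
    have h : ∃ q ∈ S, q.1 = p.1 := ⟨p, hp, rfl⟩
    simp only [y, dif_pos h]
    rw [hinj (Classical.choose_spec h).1 hp (Classical.choose_spec h).2]
  rw [← card_image_of_injOn hinj]
  refine chain_card_le (S.image Prod.fst) y hN ?_ ?_ ?_
  · simp only [mem_image, forall_exists_index, and_imp]
    rintro _ p hp rfl _ q hq rfl _ r hr rfl hpq hqr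
    rw [hy' p hp, hy' q hq, hy' r hr]
    obtain ⟨α, β, hβ, h⟩ := hsep q hq
    have h1 := h p hp fun e => hpq.ne (by rw [e])
    have h2 := h r hr fun e => hqr.ne (by rw [e])
    have c1 : (p.1 : ℝ) < q.1 := Int.cast_lt.2 hpq
    have c2 : (q.1 : ℝ) < r.1 := Int.cast_lt.2 hqr
    have h3 : 0 < β * (((r.2 : ℝ) - q.2) * (q.1 - p.1) - (q.2 - p.2) * (r.1 - q.1)) := by
      nlinarith [mul_lt_mul_of_pos_right h1 (sub_pos.2 c2),
        mul_lt_mul_of_pos_right h2 (sub_pos.2 c1)]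
    have h4 := sub_pos.1 (pos_of_mul_pos_right h3 hβ.le)
    exact_mod_cast h4
  · simp only [mem_image, forall_exists_index, and_imp]
    rintro _ p hp rfl _ q hq rfl
    exact hx p hp q hq
  · simp only [mem_image, forall_exists_index, and_imp]
    rintro _ p hp rfl _ q hq rfl
    rw [hy' p hp, hy' q hq]
    exact hy p hp q hq

/-- **Jarník's theorem** for points separated by linear functionals. -/
theorem separated_card_le (S : Finset (ℤ × ℤ)) {N : ℝ} (hN : 0 ≤ N)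
    (hsep : ∀ p ∈ S, ∃ α β : ℝ, ∀ q ∈ S, q ≠ p → α * p.1 + β * p.2 < α * q.1 + β * q.2)
    (hx : ∀ p ∈ S, ∀ q ∈ S, ((q.1 - p.1 : ℤ) : ℝ) ≤ N)
    (hy : ∀ p ∈ S, ∀ q ∈ S, ((q.2 - p.2 : ℤ) : ℝ) ≤ N) :
    (#S : ℝ) ≤ 48 * N ^ (2 / 3 : ℝ) + 51 := by
  classical
  choose! α β h using hsep
  set A := S.filter fun p => 0 < β p with hA
  set B := S.filter fun p => β p < 0 with hB
  set Z := S.filter fun p => β p = 0 with hZ
  have hA' := lower_card_le A hN (fun p hp => ⟨α p, β p, (mem_filter.1 hp).2,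
      fun q hq => h p (mem_filter.1 hp).1 q (mem_filter.1 hq).1⟩)
    (fun p hp q hq => hx p (mem_filter.1 hp).1 q (mem_filter.1 hq).1)
    (fun p hp q hq => hy p (mem_filter.1 hp).1 q (mem_filter.1 hq).1)
  have hB' := lower_card_le (B.image fun p => (p.1, -p.2)) hN
    (fun p' hp' => by
      obtain ⟨p, hp, rfl⟩ := mem_image.1 hp'
      refine ⟨α p, -β p, neg_pos.2 (mem_filter.1 hp).2, fun q' hq' hne => ?_⟩
      obtain ⟨q, hq, rfl⟩ := mem_image.1 hq'
      have := h p (mem_filter.1 hp).1 q (mem_filter.1 hq).1 fun e => hne (by rw [e])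
      simpa using this)
    (fun p' hp' q' hq' => by
      obtain ⟨p, hp, rfl⟩ := mem_image.1 hp'
      obtain ⟨q, hq, rfl⟩ := mem_image.1 hq'
      exact hx p (mem_filter.1 hp).1 q (mem_filter.1 hq).1)
    (fun p' hp' q' hq' => by
      obtain ⟨p, hp, rfl⟩ := mem_image.1 hp'
      obtain ⟨q, hq, rfl⟩ := mem_image.1 hq'
      have := hy q (mem_filter.1 hq).1 p (mem_filter.1 hp).1
      show ((-q.2 - -p.2 : ℤ) : ℝ) ≤ N
      rwa [neg_sub_neg])
  rw [card_image_of_injective _ fun p q e => by simpa [Prod.ext_iff] using e] at hB'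
  have hZ' : #Z ≤ 3 := by
    refine le_trans ?_ (show #(univ : Finset SignType) ≤ 3 by decide)
    refine card_le_card_of_injOn (fun p => SignType.sign (α p)) (fun _ _ => mem_univ _) ?_
    intro p hp q hq e
    by_contra hne
    obtain ⟨hpS, hp0⟩ := mem_filter.1 (mem_coe.1 hp)
    obtain ⟨hqS, hq0⟩ := mem_filter.1 (mem_coe.1 hq)
    have h1 := h p hpS q hqS (Ne.symm hne)
    have h2 := h q hqS p hpS hne
    simp only [hp0, hq0, zero_mul, add_zero] at h1 h2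
    simp only at e
    rcases lt_trichotomy (α p) 0 with h3 | h3 | h3
    · rw [sign_neg h3, eq_comm, sign_eq_neg_one_iff] at e
      nlinarith
    · simp [h3] at h1
    · rw [sign_pos h3, eq_comm, sign_eq_one_iff] at e
      nlinarith
  have hcard : #S ≤ #A + #B + #Z := by
    refine (card_le_card fun p hp => ?_).trans ((card_union_le _ _).trans
      (Nat.add_le_add_right (card_union_le A B) _))
    rcases lt_trichotomy (β p) 0 with h3 | h3 | h3 <;> simp [hA, hB, hZ, hp, h3]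
  have hcard' : (#S : ℝ) ≤ #A + #B + #Z := by exact_mod_cast hcard
  have hZ'' : (#Z : ℝ) ≤ 3 := by exact_mod_cast hZ'
  linarith

/-- **Jarník's theorem** for lattice points in convex position. -/
theorem convexPosition_card_le (S : Finset (ℤ × ℤ)) {N : ℝ} (hN : 0 ≤ N)
    (hS : ConvexIndependent ℝ ((↑) : ↥(toPlane '' (S : Set (ℤ × ℤ))) → ℝ × ℝ))
    (hx : ∀ p ∈ S, ∀ q ∈ S, ((q.1 - p.1 : ℤ) : ℝ) ≤ N)
    (hy : ∀ p ∈ S, ∀ q ∈ S, ((q.2 - p.2 : ℤ) : ℝ) ≤ N) :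
    (#S : ℝ) ≤ 48 * N ^ (2 / 3 : ℝ) + 51 := by
  refine separated_card_le S hN (fun p hp => ?_) hx hy
  have hnot := convexIndependent_set_iff_notMem_convexHull_sdiff.1 hS (toPlane p)
    (Set.mem_image_of_mem _ hp)
  obtain ⟨φ, u, h1, h2⟩ := geometric_hahn_banach_point_closed (convex_convexHull ℝ _)
    (((S.finite_toSet.image toPlane).subset Set.sdiff_subset).isCompact_convexHull ℝ).isClosed hnot
  refine ⟨φ (1, 0), φ (0, 1), fun q hq hne => ?_⟩
  have hφ : ∀ r : ℤ × ℤ, φ (toPlane r) = φ (1, 0) * r.1 + φ (0, 1) * r.2 := fun r => by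
    have e : toPlane r = (r.1 : ℝ) • ((1, 0) : ℝ × ℝ) + (r.2 : ℝ) • ((0, 1) : ℝ × ℝ) := by
      simp [toPlane]
    rw [e, map_add, map_smul, map_smul, smul_eq_mul, smul_eq_mul]
    ring
  rw [← hφ, ← hφ]
  exact h1.trans (h2 _ (subset_convexHull ℝ _
    ⟨Set.mem_image_of_mem _ hq, fun e => hne (toPlane_injective e)⟩))

/-- **Jarník's theorem** for a strictly convex function. -/
theorem strictConvex_card_le {a b N : ℝ} (hab : b - a ≤ N) (hN : 0 ≤ N) {f : ℝ → ℝ}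
    (hf : StrictConvexOn ℝ (Set.Icc a b) f)
    (hrange : ∀ u ∈ Set.Icc a b, ∀ v ∈ Set.Icc a b, f v - f u ≤ N) (X : Finset ℤ)
    (hX : ∀ n ∈ X, (n : ℝ) ∈ Set.Icc a b ∧ ∃ z : ℤ, f n = z) :
    (#X : ℝ) ≤ 24 * N ^ (2 / 3 : ℝ) + 24 := by
  choose! hmem y hy using hX
  refine chain_card_le X y hN (fun p hp q hq r hr hpq hqr => ?_) (fun p hp q hq => ?_)
    fun p hp q hq => ?_
  · have c1 : (p : ℝ) < q := Int.cast_lt.2 hpq
    have c2 : (q : ℝ) < r := Int.cast_lt.2 hqr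
    have h := hf.slope_strict_mono_adjacent (hmem p hp) (hmem r hr) c1 c2
    rw [hy p hp, hy q hq, hy r hr, div_lt_div_iff₀ (sub_pos.2 c1) (sub_pos.2 c2)] at h
    exact_mod_cast h
  · push_cast
    linarith [(hmem p hp).1, (hmem q hq).2]
  · push_cast
    rw [← hy p hp, ← hy q hq]
    exact hrange _ (hmem p hp) _ (hmem q hq)

/-- **Lattice points on a circle.** -/
theorem circle_card_le {R : ℝ} (hR : 0 ≤ R) (c : ℝ × ℝ) (S : Finset (ℤ × ℤ))
    (hS : ∀ p ∈ S, ((p.1 : ℝ) - c.1) ^ 2 + ((p.2 : ℝ) - c.2) ^ 2 = R ^ 2) :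
    (#S : ℝ) ≤ 96 * R ^ (2 / 3 : ℝ) + 51 := by
  have hbox : ∀ p ∈ S, |(p.1 : ℝ) - c.1| ≤ R ∧ |(p.2 : ℝ) - c.2| ≤ R := fun p hp =>
    ⟨abs_le_of_sq_le_sq (by nlinarith [hS p hp]) hR, abs_le_of_sq_le_sq (by nlinarith [hS p hp]) hR⟩
  refine (separated_card_le S (N := 2 * R) (by linarith) (fun p hp => ?_) (fun p hp q hq => ?_)
    fun p hp q hq => ?_).trans ?_
  · refine ⟨-((p.1 : ℝ) - c.1), -((p.2 : ℝ) - c.2), fun q hq hne => ?_⟩
    have hpos : 0 < ((q.1 : ℝ) - p.1) ^ 2 + ((q.2 : ℝ) - p.2) ^ 2 := by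
      rcases not_and_or.1 (fun h => hne (Prod.ext h.1 h.2) : ¬(q.1 = p.1 ∧ q.2 = p.2)) with h | h
      · have : (q.1 : ℝ) - p.1 ≠ 0 := sub_ne_zero.2 (Int.cast_injective.ne h)
        positivity
      · have : (q.2 : ℝ) - p.2 ≠ 0 := sub_ne_zero.2 (Int.cast_injective.ne h)
        positivity
    nlinarith [hS p hp, hS q hq]
  · push_cast
    linarith [abs_le.1 (hbox p hp).1, abs_le.1 (hbox q hq).1]
  · push_cast
    linarith [abs_le.1 (hbox p hp).2, abs_le.1 (hbox q hq).2]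
  · have h2 : (2 : ℝ) ^ (2 / 3 : ℝ) ≤ 2 := by
      calc (2 : ℝ) ^ (2 / 3 : ℝ) ≤ (2 : ℝ) ^ (1 : ℝ) :=
            Real.rpow_le_rpow_of_exponent_le (by norm_num) (by norm_num)
        _ = 2 := Real.rpow_one 2
    rw [Real.mul_rpow two_pos.le hR]
    nlinarith [Real.rpow_nonneg hR (2 / 3)]

end FA.JarnikLattice

end
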