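import Fermat.Agent.JarnikLattice.Main
import Mathlib.Data.Nat.Factorization.Basic

/-!
# Jarník's theorem is sharp

The vectors of coprime pairs in a square, in order of gradient, form a convex chain.
-/

set_option autoImplicit false

noncomputable section

open Finset

namespace FA.JarnikLattice

theorem sum_inv_sq_le : ∀ k : ℕ, 2 ≤ k → ∑ d ∈ Icc 2 k, 1 / (d : ℝ) ^ 2 ≤ 3 / 4 - 1 / (k : ℝ) := by
  intro k hk
  induction k, hk using Nat.le_induction with
  | base => norm_num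
  | succ k hk ih =>
    rw [sum_Icc_succ_top (by omega)]
    have hk0 : (0 : ℝ) < k := by exact_mod_cast (by omega : 0 < k)
    have : 1 / (((k + 1 : ℕ) : ℝ)) ^ 2 ≤ 1 / k - 1 / ((k + 1 : ℕ) : ℝ) := by
      push_cast
      field_simp
      nlinarith
    linarith

/-- A quarter of the pairs are coprime. -/
theorem card_coprime_ge (k : ℕ) :
    (k : ℝ) ^ 2 / 4 ≤ #((Icc 1 k ×ˢ Icc 1 k).filter fun v : ℕ × ℕ => v.1.Coprime v.2) := by
  set P := Icc 1 k ×ˢ Icc 1 k with hP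
  have hIcc : ∀ d : ℕ, #((Icc 1 k).filter fun a => d ∣ a) = k / d := fun d => by
    rw [show Icc 1 k = Ioc 0 k from Finset.Icc_succ_left_eq_Ioc 0 k, Nat.Ioc_filter_dvd_card_eq_div]
  have hbad : (P.filter fun v => ¬v.1.Coprime v.2) ⊆ (Icc 2 k).biUnion fun d =>
      ((Icc 1 k).filter fun a => d ∣ a) ×ˢ ((Icc 1 k).filter fun a => d ∣ a) := by
    intro v hv
    simp only [hP, mem_filter, mem_product, mem_Icc] at hv
    have h1 : Nat.gcd v.1 v.2 ≠ 1 := hv.2
    have h2 : Nat.gcd v.1 v.2 ≤ v.1 := Nat.le_of_dvd (by omega) (Nat.gcd_dvd_left _ _)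
    have h3 : 0 < Nat.gcd v.1 v.2 := Nat.gcd_pos_of_pos_left _ (by omega)
    simp only [mem_biUnion, mem_Icc, mem_product, mem_filter]
    exact ⟨Nat.gcd v.1 v.2, ⟨by omega, by omega⟩, ⟨hv.1.1, Nat.gcd_dvd_left _ _⟩,
      hv.1.2, Nat.gcd_dvd_right _ _⟩
  have h1 : (#(P.filter fun v => ¬v.1.Coprime v.2) : ℝ) ≤ 3 / 4 * (k : ℝ) ^ 2 := by
    calc (#(P.filter fun v => ¬v.1.Coprime v.2) : ℝ)
        ≤ ((∑ d ∈ Icc 2 k, (k / d) * (k / d) : ℕ) : ℝ) := by
          refine Nat.cast_le.2 ((card_le_card hbad).trans (card_biUnion_le.trans (le_of_eq ?_)))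
          exact sum_congr rfl fun d _ => by rw [card_product, hIcc]
      _ ≤ ∑ d ∈ Icc 2 k, (k : ℝ) ^ 2 * (1 / (d : ℝ) ^ 2) := by
          rw [Nat.cast_sum]
          refine sum_le_sum fun d _ => ?_
          rw [Nat.cast_mul, mul_one_div, ← div_pow, ← sq]
          exact pow_le_pow_left₀ (Nat.cast_nonneg _) Nat.cast_div_le 2
      _ ≤ (k : ℝ) ^ 2 * (3 / 4) := by
          rw [← mul_sum]
          refine mul_le_mul_of_nonneg_left ?_ (sq_nonneg _)
          rcases Nat.lt_or_ge k 2 with hk | hk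
          · rw [Icc_eq_empty (by omega), sum_empty]
            norm_num
          · exact (sum_inv_sq_le k hk).trans (sub_le_self _ (by positivity))
      _ = 3 / 4 * (k : ℝ) ^ 2 := by ring
  have h2 := card_filter_add_card_filter_not (s := P) (fun v : ℕ × ℕ => v.1.Coprime v.2)
  have h3 : #P = k * k := by rw [hP, card_product, Nat.card_Icc, Nat.add_sub_cancel]
  rw [h3] at h2
  have h4 : (#(P.filter fun v => v.1.Coprime v.2) : ℝ) +
      #(P.filter fun v => ¬v.1.Coprime v.2) = (k : ℝ) * k := by exact_mod_cast h2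
  nlinarith

/-- **Sharpness.** -/
theorem exists_convexPosition (N : ℕ) (hN : 0 < N) :
    ∃ S : Finset (ℤ × ℤ), (∀ p ∈ S, (0 ≤ p.1 ∧ p.1 ≤ N) ∧ 0 ≤ p.2 ∧ p.2 ≤ N) ∧
      ConvexIndependent ℝ ((↑) : ↥(toPlane '' (S : Set (ℤ × ℤ))) → ℝ × ℝ) ∧
      (N : ℝ) ^ (2 / 3 : ℝ) / 16 ≤ #S := by
  classical
  set r := (N : ℝ) ^ (1 / 3 : ℝ) with hr
  have hr1 : 1 ≤ r := Real.one_le_rpow (by exact_mod_cast hN) (by norm_num)
  set k := ⌊r⌋₊ with hk
  have hk3 : k ^ 3 ≤ N := by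
    have h := pow_le_pow_left₀ (Nat.cast_nonneg k) (Nat.floor_le (by linarith : 0 ≤ r)) 3
    rw [hr, ← Real.rpow_natCast ((N : ℝ) ^ (1 / 3 : ℝ)) 3, ← Real.rpow_mul (Nat.cast_nonneg N)] at h
    norm_num at h
    exact_mod_cast h
  set P := (Icc 1 k ×ˢ Icc 1 k).filter fun v : ℕ × ℕ => v.1.Coprime v.2 with hP
  have hPk : ∀ v ∈ P, (0 < v.1 ∧ v.1 ≤ k) ∧ (0 < v.2 ∧ v.2 ≤ k) ∧ v.1.Coprime v.2 := fun v hv => by
    simp only [hP, mem_filter, mem_product, mem_Icc] at hv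
    exact ⟨⟨by omega, hv.1.1.2⟩, ⟨by omega, hv.1.2.2⟩, hv.2⟩
  have hinj : Set.InjOn (fun v : ℕ × ℕ => (v.1 : ℚ) / v.2) (P : Set (ℕ × ℕ)) := by
    intro v hv w hw e
    obtain ⟨⟨-, -⟩, ⟨hv2, -⟩, hvc⟩ := hPk v hv
    obtain ⟨⟨-, -⟩, ⟨hw2, -⟩, hwc⟩ := hPk w hw
    simp only at e
    rw [div_eq_div_iff (by exact_mod_cast hv2.ne') (by exact_mod_cast hw2.ne')] at e
    have e' : v.1 * w.2 = w.1 * v.2 := by exact_mod_cast e
    have h1 : v.2 = w.2 := Nat.dvd_antisymm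
      (hvc.symm.dvd_of_dvd_mul_left ⟨w.1, by rw [e', mul_comm]⟩)
      (hwc.symm.dvd_of_dvd_mul_left ⟨v.1, by rw [← e', mul_comm]⟩)
    rw [h1] at e'
    exact Prod.ext (Nat.eq_of_mul_eq_mul_right hw2 e') h1
  set Q := P.image fun v : ℕ × ℕ => (v.1 : ℚ) / v.2
  obtain ⟨m, hm⟩ : ∃ m, #Q = m := ⟨_, rfl⟩
  have hv : ∀ i : ℕ, ∃ v : ℕ × ℕ, ∀ hi : i < m,
      v ∈ P ∧ (v.1 : ℚ) / v.2 = Q.orderEmbOfFin hm ⟨i, hi⟩ := fun i => by
    by_cases hi : i < m
    · obtain ⟨v, h⟩ := mem_image.1 (Q.orderEmbOfFin_mem hm ⟨i, hi⟩)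
      exact ⟨v, fun _ => h⟩
    · exact ⟨0, fun h => absurd h hi⟩
  choose v hv using hv
  let px : ℕ → ℤ := fun i => ∑ l ∈ range i, ((v l).2 : ℤ)
  let py : ℕ → ℤ := fun i => ∑ l ∈ range i, ((v l).1 : ℤ)
  have hmP : m = #P := by rw [← hm, card_image_of_injOn hinj]
  have hmk : m ≤ k * k := by
    rw [hmP]
    refine (card_filter_le _ _).trans ?_
    rw [card_product, Nat.card_Icc, Nat.add_sub_cancel]
  let S := (range (m + 1)).image fun i => (px i, py i)
  have hXmono : ∀ i, i + 1 < m + 1 → px i < px (i + 1) := fun i hi => by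
    simp only [px, sum_range_succ]
    have := (hPk _ (hv i (by omega)).1).2.1.1
    omega
  have hXlt : ∀ i j, i < j → j ≤ m → px i < px j := fun i j hij hj => by
    induction j, hij using Nat.le_induction with
    | base => exact hXmono i (by omega)
    | succ j hij ih => exact (ih (by omega)).trans (hXmono j (by omega))
  have harc : FA.HappyEnding.IsArc 1 (S.image toPlane) (m + 1) fun i => toPlane (px i, py i) := by
    refine ⟨fun i hi => mem_image_of_mem _ (mem_image_of_mem _ (mem_range.2 hi)),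
      fun i hi => Int.cast_lt.2 (hXmono i hi), fun i hi => ?_⟩
    have hg : ∀ j < m, FA.HappyEnding.grad (toPlane (px j, py j))
        (toPlane (px (j + 1), py (j + 1))) =
        (((v j).1 / (v j).2 : ℚ) : ℝ) := fun j hj => by
      simp [FA.HappyEnding.grad, toPlane, px, py, sum_range_succ]
    rw [one_mul, one_mul, hg i (by omega), hg (i + 1) (by omega), Rat.cast_lt,
      (hv i (by omega)).2, (hv (i + 1) (by omega)).2]
    exact (Q.orderEmbOfFin hm).strictMono (Fin.mk_lt_mk.2 (Nat.lt_succ_self i))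
  have hScard : #S = m + 1 := by
    rw [card_image_of_injOn, card_range]
    intro i hi j hj e
    simp only [coe_range, Set.mem_Iio] at hi hj
    have e1 := (Prod.ext_iff.1 e).1
    simp only at e1
    rcases lt_trichotomy i j with h | h | h
    exacts [absurd e1 (hXlt i j h (by omega)).ne, h, absurd e1 (hXlt j i h (by omega)).ne']
  obtain ⟨t, htS, htc, ht⟩ := harc.convexIndependent
  have heq : t = S.image toPlane := eq_of_subset_of_card_le htS (by
    rw [htc, card_image_of_injective _ toPlane_injective, hScard])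
  rw [heq, coe_image] at ht
  refine ⟨S, fun p hp => ?_, ht, ?_⟩
  · obtain ⟨i, hi, rfl⟩ := mem_image.1 hp
    have hi' : i ≤ m := Nat.lt_succ_iff.1 (mem_range.1 hi)
    have hN' : (i : ℤ) * k ≤ N := by
      have : i * k ≤ N := (Nat.mul_le_mul_right k (hi'.trans hmk)).trans (by
        rwa [show k * k * k = k ^ 3 by ring])
      exact_mod_cast this
    have hb : ∀ l ∈ range i, (v l).1 ≤ k ∧ (v l).2 ≤ k := fun l hl =>
      ⟨(hPk _ (hv l (by simp at hl; omega)).1).1.2, (hPk _ (hv l (by simp at hl; omega)).1).2.1.2⟩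
    show (0 ≤ ∑ l ∈ range i, ((v l).2 : ℤ) ∧ _) ∧ 0 ≤ ∑ l ∈ range i, ((v l).1 : ℤ) ∧ _
    refine ⟨⟨sum_nonneg fun l _ => Int.natCast_nonneg _, le_trans ?_ hN'⟩,
      sum_nonneg fun l _ => Int.natCast_nonneg _, le_trans ?_ hN'⟩
    · refine (sum_le_card_nsmul _ _ (k : ℤ) fun l hl => Int.ofNat_le.2 (hb l hl).2).trans_eq ?_
      rw [card_range, nsmul_eq_mul]
    · refine (sum_le_card_nsmul _ _ (k : ℤ) fun l hl => Int.ofNat_le.2 (hb l hl).1).trans_eq ?_
      rw [card_range, nsmul_eq_mul]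
  · have hkr : r / 2 ≤ (k : ℝ) := by
      have h1 : r < (k : ℝ) + 1 := Nat.lt_floor_add_one r
      have h2 : (1 : ℝ) ≤ k := by exact_mod_cast Nat.one_le_floor_iff r |>.2 hr1
      linarith
    have h := card_coprime_ge k
    rw [← hP, ← hmP] at h
    rw [hScard, Nat.cast_add, Nat.cast_one,
      show (N : ℝ) ^ (2 / 3 : ℝ) = r ^ 2 by
        rw [hr, ← Real.rpow_natCast _ 2, ← Real.rpow_mul (Nat.cast_nonneg N)]
        norm_num]
    nlinarith

end FA.JarnikLattice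

end
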